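/-
T1G (helper6): the abstract Gauss valuation package `TaAbs` of ANY intermediate field
`F ≤ Frac O((t))` of `L((t))` (generic version of `taAbs` of `Lib/T1/GoodRed/Core.lean`).
-/
import Fermat.Agent.Lib.T1.GoodRed.AbsCore
import Fermat.Agent.Lib.T1.GoodRed.Gauss

set_option autoImplicit false
set_option linter.unusedSectionVars false
set_option linter.style.haveILetI false

open HahnSeries ModularCurve Fermat.Agent.T1

noncomputable section

namespace Fermat.Agent.T1G

variable {L : Type*} [Field L] (O : ValuationSubring L)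
  {k : Type*} [Field k] (π : ↥O →+* k)
  [IsDiscreteValuationRing ↥O] (hπ : Function.Surjective π)
  (F : IntermediateField L (LaurentSeries L)) (hF : ∀ f ∈ F, TaFrac O f)

theorem tg_coe_algebraMap (c : L) :
    ((algebraMap L ↥F c : ↥F) : LaurentSeries L) = HahnSeries.C c := by
  show algebraMap L (LaurentSeries L) c = _
  rw [algebraMap_laurentSeries_eq_single]
  rfl

theorem tg_algebraMap_mem_taVal (a : ↥O) : algebraMap L ↥F (a : L) ∈ taVal O π hπ F hF :=
  mem_taVal_of_eq_taInc O π hπ F hF (s := HahnSeries.C a) (by rw [tg_coe_algebraMap, taInc_C])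

theorem tg_taRes_algebraMap (a : ↥O) :
    taRes O π hπ F hF ⟨algebraMap L ↥F (a : L), tg_algebraMap_mem_taVal O π hπ F hF a⟩ =
      HahnSeries.C (π a) := by
  rw [taRes_of_eq_taInc O π hπ F hF (s := HahnSeries.C a) (by rw [tg_coe_algebraMap, taInc_C]),
    taRed_C]

theorem tg_algebraMap_eq_C : (algebraMap k (LaurentSeries k)) = (HahnSeries.C : k →+* _) := by
  ext c : 1
  rw [algebraMap_laurentSeries_eq_single]
  rfl

/-- **the abstract Gauss valuation package of `F`** -/
def tgAbsOf : TaAbs L ↥F k (LaurentSeries k) where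
  O := O
  dvr := inferInstance
  π := π
  π_surj := hπ
  Ov := taVal O π hπ F hF
  ρ := taRes O π hπ F hF
  algebraMap_mem := tg_algebraMap_mem_taVal O π hπ F hF
  ρ_algebraMap := fun a => by
    rw [tg_taRes_algebraMap, tg_algebraMap_eq_C]
  ρ_eq_zero_iff := fun hϖ f => taRes_eq_zero_iff O π hπ F hF hϖ f
  exists_pow_mul_mem := fun {ϖ} hϖ f => by
    by_cases hf : f = 0
    · exact ⟨0, by rw [hf, mul_zero]; exact (taVal O π hπ F hF).zero_mem⟩
    obtain ⟨n, u, hu, -, hfu⟩ := ta_exists_zpow_mul_unit O π hπ F hF hϖ f hf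
    have hϖ0 : algebraMap L ↥F ((ϖ : ↥O) : L) ≠ 0 := by
      rw [Ne, map_eq_zero]
      exact ta_coe_unif_ne_zero hϖ
    refine ⟨(-n).toNat, ?_⟩
    have h1 : algebraMap L ↥F ((ϖ : ↥O) : L) ^ (-n).toNat * f =
        algebraMap L ↥F ((ϖ : ↥O) : L) ^ ((-n).toNat + n).toNat * u := by
      rw [hfu, ← mul_assoc, ← zpow_natCast, ← zpow_natCast, ← zpow_add₀ hϖ0]
      congr 2
      omega
    rw [h1]
    exact (taVal O π hπ F hF).mul_mem _ _
      (pow_mem (tg_algebraMap_mem_taVal O π hπ F hF ϖ) _) hu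

theorem tgAbsOf_O : (tgAbsOf O π hπ F hF).O = O := rfl
theorem tgAbsOf_Ov : (tgAbsOf O π hπ F hF).Ov = taVal O π hπ F hF := rfl
theorem tgAbsOf_ρ : (tgAbsOf O π hπ F hF).ρ = taRes O π hπ F hF := rfl
theorem tgAbsOf_π : (tgAbsOf O π hπ F hF).π = π := rfl

end Fermat.Agent.T1G
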