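/-
T1G (helper6): the residue field `tgResRange` of the Gauss valuation of ANY intermediate field
`F ≤ Frac O((t))` as an intermediate field of `k((t)) / k`, and the automorphisms of the residue
field induced by the `L`-automorphisms of `F` preserving the Gauss valuation ring.
-/
import Fermat.Agent.Lib.T1G.GoodRed.AbsOf

set_option autoImplicit false
set_option linter.unusedSectionVars false
set_option linter.style.haveILetI false

open HahnSeries ModularCurve Fermat.Agent.T1

noncomputable section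

namespace Fermat.Agent.T1G

variable {L : Type*} [Field L] (O : ValuationSubring L)
  {k : Type*} [Field k] (π : ↥O →+* k)
  [IsDiscreteValuationRing ↥O] (hπ : Function.Surjective π)
  (F : IntermediateField L (LaurentSeries L)) (hF : ∀ f ∈ F, TaFrac O f)

/-! ### The residue field -/

theorem tg_taRes_inv (f : ↥(taVal O π hπ F hF)) (h0 : taRes O π hπ F hF f ≠ 0) :
    taRes O π hπ F hF ⟨((f : ↥F))⁻¹, inv_mem_taVal_of_taRes_ne_zero O π hπ F hF f h0⟩ =
      (taRes O π hπ F hF f)⁻¹ := by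
  have h1 : (⟨((f : ↥F))⁻¹, inv_mem_taVal_of_taRes_ne_zero O π hπ F hF f h0⟩ :
      ↥(taVal O π hπ F hF)) * f = 1 := by
    apply Subtype.ext
    show ((f : ↥F))⁻¹ * (f : ↥F) = 1
    apply inv_mul_cancel₀
    intro hf0
    apply h0
    have : f = 0 := Subtype.ext hf0
    rw [this, map_zero]
  have h2 := congrArg (taRes O π hπ F hF) h1
  rw [map_mul, map_one] at h2
  exact eq_inv_of_mul_eq_one_left h2

/-- the residue field of the Gauss valuation, as an intermediate field of `k((t)) / k` -/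
def tgResRange : IntermediateField k (LaurentSeries k) :=
  Subfield.toIntermediateField
    { (taRes O π hπ F hF).range with
      inv_mem' := by
        rintro _ ⟨f, rfl⟩
        by_cases h0 : taRes O π hπ F hF f = 0
        · rw [h0, inv_zero]
          exact ⟨0, map_zero _⟩
        · exact ⟨_, tg_taRes_inv O π hπ F hF f h0⟩ }
    (fun c => by
      obtain ⟨a, rfl⟩ := hπ c
      refine ⟨⟨_, tg_algebraMap_mem_taVal O π hπ F hF a⟩, ?_⟩
      rw [tg_taRes_algebraMap, tg_algebraMap_eq_C])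

theorem mem_tgResRange_iff (y : LaurentSeries k) :
    y ∈ tgResRange O π hπ F hF ↔ ∃ f : ↥(taVal O π hπ F hF), taRes O π hπ F hF f = y := Iff.rfl

theorem taRes_mem_tgResRange (f : ↥(taVal O π hπ F hF)) :
    taRes O π hπ F hF f ∈ tgResRange O π hπ F hF := ⟨f, rfl⟩

/-- the residue map onto the residue field -/
def tgResHom : ↥(taVal O π hπ F hF) →+* ↥(tgResRange O π hπ F hF) where
  toFun f := ⟨taRes O π hπ F hF f, taRes_mem_tgResRange O π hπ F hF f⟩
  map_one' := Subtype.ext (map_one _)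
  map_mul' _ _ := Subtype.ext (map_mul _ _ _)
  map_zero' := Subtype.ext (map_zero _)
  map_add' _ _ := Subtype.ext (map_add _ _ _)

theorem coe_tgResHom (f : ↥(taVal O π hπ F hF)) :
    ((tgResHom O π hπ F hF f : ↥(tgResRange O π hπ F hF)) : LaurentSeries k) =
      taRes O π hπ F hF f := rfl

theorem tgResHom_surjective : Function.Surjective (tgResHom O π hπ F hF) := by
  rintro ⟨y, f, rfl⟩
  exact ⟨f, rfl⟩

theorem tgResHom_algebraMap (a : ↥O) :
    tgResHom O π hπ F hF ⟨algebraMap L ↥F (a : L), tg_algebraMap_mem_taVal O π hπ F hF a⟩ =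
      algebraMap k ↥(tgResRange O π hπ F hF) (π a) := by
  apply Subtype.ext
  rw [coe_tgResHom, tg_taRes_algebraMap]
  show _ = algebraMap k (LaurentSeries k) (π a)
  rw [tg_algebraMap_eq_C]

/-! ### Automorphisms preserving the Gauss valuation ring -/

/-- the stabiliser of the Gauss valuation ring in `Aut_L(F)` -/
def tgStab : Subgroup (↥F ≃ₐ[L] ↥F) where
  carrier := {σ | ∀ x : ↥F, x ∈ taVal O π hπ F hF ↔ σ x ∈ taVal O π hπ F hF}
  one_mem' := fun x => by rw [AlgEquiv.one_apply]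
  mul_mem' := fun {a b} ha hb x => by
    rw [AlgEquiv.mul_apply, ← ha, ← hb]
  inv_mem' := fun {a} ha x => by
    rw [ha (a⁻¹ x), ← AlgEquiv.mul_apply, mul_inv_cancel, AlgEquiv.one_apply]

theorem mem_tgStab_iff (σ : ↥F ≃ₐ[L] ↥F) :
    σ ∈ tgStab O π hπ F hF ↔
      ∀ x : ↥F, x ∈ taVal O π hπ F hF ↔ σ x ∈ taVal O π hπ F hF := Iff.rfl

variable {O π hπ F hF}

/-- the restriction of `σ` to the Gauss valuation ring -/
def tgStabMap (σ : ↥(tgStab O π hπ F hF)) : ↥(taVal O π hπ F hF) →+* ↥(taVal O π hπ F hF) where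
  toFun x := ⟨σ.1 (x : ↥F), (σ.2 (x : ↥F)).mp x.2⟩
  map_one' := Subtype.ext (map_one σ.1)
  map_mul' _ _ := Subtype.ext (map_mul σ.1 _ _)
  map_zero' := Subtype.ext (map_zero σ.1)
  map_add' _ _ := Subtype.ext (map_add σ.1 _ _)

theorem coe_tgStabMap (σ : ↥(tgStab O π hπ F hF)) (x : ↥(taVal O π hπ F hF)) :
    ((tgStabMap σ x : ↥(taVal O π hπ F hF)) : ↥F) = σ.1 (x : ↥F) := rfl

theorem tgStabMap_one (x : ↥(taVal O π hπ F hF)) :
    tgStabMap (1 : ↥(tgStab O π hπ F hF)) x = x := rfl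

theorem tgStabMap_mul (σ τ : ↥(tgStab O π hπ F hF)) (x : ↥(taVal O π hπ F hF)) :
    tgStabMap (σ * τ) x = tgStabMap σ (tgStabMap τ x) := rfl

/-- `σ` preserves the maximal ideal -/
theorem tg_res_stabMap_eq_zero (σ : ↥(tgStab O π hπ F hF)) (x : ↥(taVal O π hπ F hF))
    (hx : taRes O π hπ F hF x = 0) : taRes O π hπ F hF (tgStabMap σ x) = 0 := by
  obtain ⟨ϖ, hϖ⟩ := IsDiscreteValuationRing.exists_irreducible ↥O
  obtain ⟨x', hx'⟩ := (taRes_eq_zero_iff O π hπ F hF hϖ x).mp hx
  apply (taRes_eq_zero_iff O π hπ F hF hϖ _).mpr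
  refine ⟨tgStabMap σ x', ?_⟩
  rw [coe_tgStabMap, coe_tgStabMap, hx', map_mul, AlgEquiv.commutes]

theorem tg_res_stabMap_congr (σ : ↥(tgStab O π hπ F hF)) (x y : ↥(taVal O π hπ F hF))
    (h : taRes O π hπ F hF x = taRes O π hπ F hF y) :
    taRes O π hπ F hF (tgStabMap σ x) = taRes O π hπ F hF (tgStabMap σ y) := by
  have h1 : taRes O π hπ F hF (x - y) = 0 := by rw [map_sub, h, sub_self]
  have h2 := tg_res_stabMap_eq_zero σ (x - y) h1
  rw [map_sub, map_sub, sub_eq_zero] at h2
  exact h2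

/-- the map induced by `σ` on the residue field -/
def tgResFun (σ : ↥(tgStab O π hπ F hF)) (z : ↥(tgResRange O π hπ F hF)) :
    ↥(tgResRange O π hπ F hF) :=
  tgResHom O π hπ F hF (tgStabMap σ (Classical.choose (tgResHom_surjective O π hπ F hF z)))

theorem tgResFun_tgResHom (σ : ↥(tgStab O π hπ F hF)) (x : ↥(taVal O π hπ F hF)) :
    tgResFun σ (tgResHom O π hπ F hF x) = tgResHom O π hπ F hF (tgStabMap σ x) := by
  apply Subtype.ext
  rw [tgResFun, coe_tgResHom, coe_tgResHom]
  apply tg_res_stabMap_congr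
  have h := Classical.choose_spec (tgResHom_surjective O π hπ F hF (tgResHom O π hπ F hF x))
  exact congrArg (fun z : ↥(tgResRange O π hπ F hF) => (z : LaurentSeries k)) h

theorem tgResFun_one (z : ↥(tgResRange O π hπ F hF)) :
    tgResFun (1 : ↥(tgStab O π hπ F hF)) z = z := by
  obtain ⟨x, rfl⟩ := tgResHom_surjective O π hπ F hF z
  rw [tgResFun_tgResHom, tgStabMap_one]

theorem tgResFun_mul (σ τ : ↥(tgStab O π hπ F hF)) (z : ↥(tgResRange O π hπ F hF)) :
    tgResFun (σ * τ) z = tgResFun σ (tgResFun τ z) := by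
  obtain ⟨x, rfl⟩ := tgResHom_surjective O π hπ F hF z
  rw [tgResFun_tgResHom, tgResFun_tgResHom, tgResFun_tgResHom, tgStabMap_mul]

/-- the automorphism of the residue field induced by `σ` -/
def tgResAutEquiv (σ : ↥(tgStab O π hπ F hF)) :
    ↥(tgResRange O π hπ F hF) ≃ₐ[k] ↥(tgResRange O π hπ F hF) where
  toFun := tgResFun σ
  invFun := tgResFun σ⁻¹
  left_inv z := by rw [← tgResFun_mul, inv_mul_cancel, tgResFun_one]
  right_inv z := by rw [← tgResFun_mul, mul_inv_cancel, tgResFun_one]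
  map_mul' z w := by
    obtain ⟨x, rfl⟩ := tgResHom_surjective O π hπ F hF z
    obtain ⟨y, rfl⟩ := tgResHom_surjective O π hπ F hF w
    rw [← map_mul, tgResFun_tgResHom, tgResFun_tgResHom, tgResFun_tgResHom, map_mul, map_mul]
  map_add' z w := by
    obtain ⟨x, rfl⟩ := tgResHom_surjective O π hπ F hF z
    obtain ⟨y, rfl⟩ := tgResHom_surjective O π hπ F hF w
    rw [← map_add, tgResFun_tgResHom, tgResFun_tgResHom, tgResFun_tgResHom, map_add, map_add]
  commutes' c := by
    obtain ⟨a, rfl⟩ := hπ c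
    rw [← tgResHom_algebraMap O π hπ F hF a, tgResFun_tgResHom]
    congr 1
    apply Subtype.ext
    rw [coe_tgStabMap]
    exact AlgEquiv.commutes _ _

theorem tgResAutEquiv_apply (σ : ↥(tgStab O π hπ F hF)) (z : ↥(tgResRange O π hπ F hF)) :
    tgResAutEquiv σ z = tgResFun σ z := rfl

variable (O π hπ F hF) in
/-- **the action of the stabiliser of the Gauss valuation ring on the residue field** -/
def tgResAut : ↥(tgStab O π hπ F hF) →*
    (↥(tgResRange O π hπ F hF) ≃ₐ[k] ↥(tgResRange O π hπ F hF)) where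
  toFun := tgResAutEquiv
  map_one' := AlgEquiv.ext fun z => tgResFun_one z
  map_mul' σ τ := AlgEquiv.ext fun z => tgResFun_mul σ τ z

theorem tgResAut_tgResHom (σ : ↥(tgStab O π hπ F hF)) (x : ↥(taVal O π hπ F hF)) :
    tgResAut O π hπ F hF σ (tgResHom O π hπ F hF x) = tgResHom O π hπ F hF (tgStabMap σ x) :=
  tgResFun_tgResHom σ x

end Fermat.Agent.T1G
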