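/-
T1G (helper6), TG-CORE: **the good reduction package of the `Γ₁(M)`-field** `TgOne L M ζ ⊆ L((q))`
over a discretely valued field `(L, O, π : O → k)` of characteristic `0` with `(M : k) ≠ 0`,
given a Galois package `Gal : TgGalois L M ζ`:

* `tgoV`, `tgoRes`, `tgoAbs`: the Gauss valuation ring, its residue map, the abstract package;
* charts `x = j`, `x = 1/j`;  `tgo_chart_data`: `[TgOne L : L(j)] = n = [TgOne k : k(j̄)]`
  (`n = [SL₂(ℤ) : ±Γ₁(M)]`, helper5's `finrank_tgOne` for `Gal` and for `tgGalBar`) gives an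
  independent family of size `n` with residues in `TgOne k M ζ̄`;
* (A1) `tgo_range`, (A3) `tgo_int_fin/inf`, `tgo_res_int_fin/inf`, (A4) `tgo_cart`, and the
  uniqueness of the Gauss valuation `tgoV_le_of_forall_inv_mem`
  — the shapes of `Lib/T1/GoodRed/Core.lean`.
-/
import Fermat.Agent.Lib.T1G.Igusa.ReduceFix
import Fermat.Agent.Lib.T1G.Model.GaloisOne
import Fermat.Agent.Lib.T1.GoodRed.AbsCart

set_option autoImplicit false
set_option linter.unusedSectionVars false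
set_option linter.style.haveILetI false
set_option synthInstance.maxHeartbeats 400000

open HahnSeries ModularCurve Fermat.Agent.T1 Fermat.Agent.Igusa Polynomial Matrix MatrixGroups
  CongruenceSubgroup IntermediateField

noncomputable section

namespace Fermat.Agent.T1G

variable {L : Type*} [Field L] [Algebra ℚ L] (O : ValuationSubring L)
  {k : Type*} [Field k] (π : ↥O →+* k)
  [IsDiscreteValuationRing ↥O] (hπ : Function.Surjective π)
  {M : ℕ} [NeZero M] {ζ : Lˣ} (hζ : IsPrimitiveRoot ζ M) (hM : (M : k) ≠ 0)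

/-! ### The generators have coefficients in `O` -/

include π hπ hM in
theorem tgNu1_eq_taInc {a a' : ZMod M} (ha : a ≠ 0) (ha' : a' ≠ 0) :
    tgNu1 L M ζ a a' = taInc O (tgNu1 ↥O M (tgZetaO O hζ.pow_eq_one) a a') := by
  have h := coeffMap_tgNu1 (O.subtype) M (tgZetaO O hζ.pow_eq_one) a a'
    (tg_isUnit_one_sub O π hπ hζ hM ha) (tg_isUnit_one_sub O π hπ hζ hM ha')
  rw [tgZetaO_map] at h
  exact h.symm

include hπ hM in
theorem taRed_tgNu1 {a a' : ZMod M} (ha : a ≠ 0) (ha' : a' ≠ 0) :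
    taRed π (tgNu1 ↥O M (tgZetaO O hζ.pow_eq_one) a a') =
      tgNu1 k M (tgZetaBar O π hζ.pow_eq_one) a a' :=
  coeffMap_tgNu1 π M (tgZetaO O hζ.pow_eq_one) a a'
    (tg_isUnit_one_sub O π hπ hζ hM ha) (tg_isUnit_one_sub O π hπ hζ hM ha')

theorem tg_jqd_eq_taInc (d : ℕ) [NeZero d] :
    qExpand L d (jqModC L) = taInc O (qExpand ↥O d (jqModC ↥O)) := by
  rw [taInc, coeffMap_qExpand, coeffMap_jqModC]

theorem taRed_jqd (d : ℕ) [NeZero d] :
    taRed π (qExpand ↥O d (jqModC ↥O)) = qExpand k d (jqModC k) := by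
  rw [taRed, coeffMap_qExpand, coeffMap_jqModC]

include π hπ hζ hM in
/-- the `Γ₁(M)`-field consists of fractions of series with coefficients in `O` -/
theorem tg_frac_of_mem_one : ∀ f ∈ TgOne L M ζ, TaFrac O f := by
  have h : TgOne L M ζ ≤ taFracField O := by
    rw [TgOne, IntermediateField.adjoin_le_iff]
    rintro x (⟨d, hd0, hd, rfl⟩ | ⟨a, a', ha, ha', rfl⟩)
    · haveI := hd0
      rw [tg_jqd_eq_taInc O d]
      exact taFrac_taInc O _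
    · rw [tgNu1_eq_taInc O π hπ hζ hM ha ha']
      exact taFrac_taInc O _
  exact fun f hf => h hf

/-- **the Gauss valuation ring of the `Γ₁(M)`-field** -/
def tgoV : ValuationSubring ↥(TgOne L M ζ) :=
  taVal O π hπ (TgOne L M ζ) (tg_frac_of_mem_one O π hπ hζ hM)

/-- **its residue map** -/
def tgoRes : ↥(tgoV O π hπ hζ hM) →+* LaurentSeries k :=
  taRes O π hπ (TgOne L M ζ) (tg_frac_of_mem_one O π hπ hζ hM)

theorem mem_tgoV_iff (f : ↥(TgOne L M ζ)) :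
    f ∈ tgoV O π hπ hζ hM ↔ TaGauss O π (f : LaurentSeries L) := Iff.rfl

theorem tgoRes_eq (f : ↥(tgoV O π hπ hζ hM)) :
    tgoRes O π hπ hζ hM f = taRhoFun O π ((f : ↥(TgOne L M ζ)) : LaurentSeries L) := rfl

theorem tgoRes_of_eq_taInc {f : ↥(tgoV O π hπ hζ hM)} {s : LaurentSeries ↥O}
    (h : ((f : ↥(TgOne L M ζ)) : LaurentSeries L) = taInc O s) :
    tgoRes O π hπ hζ hM f = taRed π s :=
  taRes_of_eq_taInc O π hπ _ _ h

/-- the abstract Gauss package of the `Γ₁(M)`-field -/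
def tgoAbs : TaAbs L ↥(TgOne L M ζ) k (LaurentSeries k) :=
  tgAbsOf O π hπ (TgOne L M ζ) (tg_frac_of_mem_one O π hπ hζ hM)

theorem tgoAbs_Ov : (tgoAbs O π hπ hζ hM).Ov = tgoV O π hπ hζ hM := rfl
theorem tgoAbs_ρ : (tgoAbs O π hπ hζ hM).ρ = tgoRes O π hπ hζ hM := rfl
theorem tgoAbs_O : (tgoAbs O π hπ hζ hM).O = O := rfl
theorem tgoAbs_π : (tgoAbs O π hπ hζ hM).π = π := rfl

/-- the residue field of the `Γ₁(M)`-field -/
def tgoResField : IntermediateField k (LaurentSeries k) :=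
  tgResRange O π hπ (TgOne L M ζ) (tg_frac_of_mem_one O π hπ hζ hM)

theorem tgoRes_mem_resField (f : ↥(tgoV O π hπ hζ hM)) :
    tgoRes O π hπ hζ hM f ∈ tgoResField O π hπ hζ hM := ⟨f, rfl⟩

/-! ### The generators and their residues -/

theorem tgOneJd_mem_tgoV {d : ℕ} [NeZero d] (hd : d ∣ M) :
    tgOneJd L M ζ hd ∈ tgoV O π hπ hζ hM :=
  mem_taVal_of_eq_taInc O π hπ _ _ (tg_jqd_eq_taInc O d)

theorem tgoRes_tgOneJd {d : ℕ} [NeZero d] (hd : d ∣ M) :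
    tgoRes O π hπ hζ hM ⟨tgOneJd L M ζ hd, tgOneJd_mem_tgoV O π hπ hζ hM hd⟩ =
      qExpand k d (jqModC k) := by
  rw [tgoRes_of_eq_taInc O π hπ hζ hM (tg_jqd_eq_taInc O d), taRed_jqd]

theorem tgOneNu_mem_tgoV {a a' : ZMod M} (ha : a ≠ 0) (ha' : a' ≠ 0) :
    tgOneNu L M ζ ha ha' ∈ tgoV O π hπ hζ hM :=
  mem_taVal_of_eq_taInc O π hπ _ _ (tgNu1_eq_taInc O π hπ hζ hM ha ha')

theorem tgoRes_tgOneNu {a a' : ZMod M} (ha : a ≠ 0) (ha' : a' ≠ 0) :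
    tgoRes O π hπ hζ hM ⟨tgOneNu L M ζ ha ha', tgOneNu_mem_tgoV O π hπ hζ hM ha ha'⟩ =
      tgNu1 k M (tgZetaBar O π hζ.pow_eq_one) a a' := by
  rw [tgoRes_of_eq_taInc O π hπ hζ hM (tgNu1_eq_taInc O π hπ hζ hM ha ha'),
    taRed_tgNu1 O π hπ hζ hM ha ha']

theorem coe_tgOneJ (K : Type*) [Field K] (ζ' : Kˣ) :
    ((tgOneJ K M ζ' : ↥(TgOne K M ζ')) : LaurentSeries K) = jqModC K := rfl

theorem tgOneJ_mem_tgoV : tgOneJ L M ζ ∈ tgoV O π hπ hζ hM :=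
  mem_taVal_of_eq_taInc O π hπ _ _ (s := jqModC ↥O) (by rw [coe_tgOneJ, taInc_jqModC])

theorem tgoRes_tgOneJ :
    tgoRes O π hπ hζ hM ⟨tgOneJ L M ζ, tgOneJ_mem_tgoV O π hπ hζ hM⟩ = jqModC k := by
  rw [tgoRes_of_eq_taInc O π hπ hζ hM (s := jqModC ↥O) (by rw [coe_tgOneJ, taInc_jqModC]),
    taRed_jqModC]

theorem tgoRes_tgOneJ_ne_zero :
    tgoRes O π hπ hζ hM ⟨tgOneJ L M ζ, tgOneJ_mem_tgoV O π hπ hζ hM⟩ ≠ 0 := by
  rw [tgoRes_tgOneJ]
  exact jqModC_ne_zero_of_nontrivial k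

theorem tgOneJ_inv_mem_tgoV : (tgOneJ L M ζ)⁻¹ ∈ tgoV O π hπ hζ hM :=
  inv_mem_taVal_of_taRes_ne_zero O π hπ _ _ ⟨tgOneJ L M ζ, tgOneJ_mem_tgoV O π hπ hζ hM⟩
    (tgoRes_tgOneJ_ne_zero O π hπ hζ hM)

theorem tgoRes_tgOneJ_inv :
    tgoRes O π hπ hζ hM ⟨(tgOneJ L M ζ)⁻¹, tgOneJ_inv_mem_tgoV O π hπ hζ hM⟩ =
      (jqModC k)⁻¹ := by
  have h := tg_taRes_inv O π hπ (TgOne L M ζ) (tg_frac_of_mem_one O π hπ hζ hM)
    ⟨tgOneJ L M ζ, tgOneJ_mem_tgoV O π hπ hζ hM⟩ (tgoRes_tgOneJ_ne_zero O π hπ hζ hM)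
  have h2 : taRes O π hπ (TgOne L M ζ) (tg_frac_of_mem_one O π hπ hζ hM)
      ⟨tgOneJ L M ζ, tgOneJ_mem_tgoV O π hπ hζ hM⟩ = jqModC k := tgoRes_tgOneJ O π hπ hζ hM
  rw [h2] at h
  exact h

/-- the `Γ₁(M)`-field of the residue field is contained in the residue field of the
`Γ₁(M)`-field -/
theorem tgOne_bar_le :
    TgOne k M (tgZetaBar O π hζ.pow_eq_one) ≤ tgoResField O π hπ hζ hM := by
  rw [TgOne, IntermediateField.adjoin_le_iff]
  rintro y (⟨d, hd0, hd, rfl⟩ | ⟨a, a', ha, ha', rfl⟩)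
  · haveI := hd0
    exact ⟨_, tgoRes_tgOneJd O π hπ hζ hM hd⟩
  · exact ⟨_, tgoRes_tgOneNu O π hπ hζ hM ha ha'⟩

theorem tgo_exists_res_eq (z : ↥(TgOne k M (tgZetaBar O π hζ.pow_eq_one))) :
    ∃ x : ↥(tgoV O π hπ hζ hM), tgoRes O π hπ hζ hM x = (z : LaurentSeries k) :=
  tgOne_bar_le O π hπ hζ hM z.2

/-! ### Transcendence of `j`, the charts -/

theorem tg_transcendental_tgOneJ (K : Type*) [Field K] (ζ' : Kˣ) :
    Transcendental K (tgOneJ K M ζ') := by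
  intro h
  obtain ⟨p, hp0, hp⟩ := h
  apply igInst_transcendental_jqModC K
  refine ⟨p, hp0, ?_⟩
  have h1 := congrArg (fun z : ↥(TgOne K M ζ') => (z : LaurentSeries K)) hp
  simp only [ZeroMemClass.coe_zero] at h1
  rw [← h1]
  exact Polynomial.aeval_algHom_apply (TgOne K M ζ').val (tgOneJ K M ζ') p

variable {ϖ : ↥O} (hϖ : Irreducible ϖ)

/-- the chart `x = j` -/
def tgoChartFin : TaChart (tgoAbs O π hπ hζ hM) where
  x := tgOneJ L M ζ
  tr := tg_transcendental_tgOneJ L ζ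
  mem := tgOneJ_mem_tgoV O π hπ hζ hM
  trρ := by
    show Transcendental k (tgoRes O π hπ hζ hM ⟨tgOneJ L M ζ, tgOneJ_mem_tgoV O π hπ hζ hM⟩)
    rw [tgoRes_tgOneJ]
    exact igInst_transcendental_jqModC k
  ϖ := ϖ
  irr := hϖ

/-- the chart `x = 1/j` -/
def tgoChartInf : TaChart (tgoAbs O π hπ hζ hM) where
  x := (tgOneJ L M ζ)⁻¹
  tr := fun h => tg_transcendental_tgOneJ L ζ (IsAlgebraic.inv_iff.mp h)
  mem := tgOneJ_inv_mem_tgoV O π hπ hζ hM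
  trρ := by
    show Transcendental k (tgoRes O π hπ hζ hM ⟨(tgOneJ L M ζ)⁻¹, tgOneJ_inv_mem_tgoV O π hπ hζ hM⟩)
    rw [tgoRes_tgOneJ_inv]
    intro h
    exact igInst_transcendental_jqModC k (IsAlgebraic.inv_iff.mp h)
  ϖ := ϖ
  irr := hϖ

theorem tgoChartFin_x : (tgoChartFin O π hπ hζ hM hϖ).x = tgOneJ L M ζ := rfl
theorem tgoChartInf_x : (tgoChartInf O π hπ hζ hM hϖ).x = (tgOneJ L M ζ)⁻¹ := rfl

theorem tgoChartFin_xb : (tgoChartFin O π hπ hζ hM hϖ).xb = jqModC k :=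
  tgoRes_tgOneJ O π hπ hζ hM

theorem tgoChartInf_xb : (tgoChartInf O π hπ hζ hM hϖ).xb = (jqModC k)⁻¹ :=
  tgoRes_tgOneJ_inv O π hπ hζ hM

end Fermat.Agent.T1G
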