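/-
T1G (helper6), TG-CORE part 2: the chart data of the `Γ₁(M)`-field and the consequences
(A1) `tgo_range`, (A2) `tgo_finrank`, (A3) `tgo_int_fin/inf`, `tgo_res_int_fin/inf`,
(A4) `tgo_cart`, and the uniqueness of the Gauss valuation — in the shapes of
`Lib/T1/GoodRed/Core.lean` with `TaF L N ↦ TgOne L M ζ`,
`modularFunctionFieldFullC k N ↦ TgOne k M ζ̄`, `taJ ↦ tgOneJ`.
-/
import Fermat.Agent.Lib.T1G.GoodRed.Core

set_option autoImplicit false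
set_option linter.unusedSectionVars false
set_option linter.style.haveILetI false
set_option synthInstance.maxHeartbeats 400000

open HahnSeries ModularCurve Fermat.Agent.T1 Fermat.Agent.Igusa Polynomial Matrix MatrixGroups
  CongruenceSubgroup IntermediateField

noncomputable section

namespace Fermat.Agent.T1G

/-! ### Generalities -/

theorem tg_linearIndependent_of_eq {K Ω : Type*} [Field K] [Field Ω] [Algebra K Ω]
    (E₁ E₂ : IntermediateField K Ω) (h : E₁ = E₂) {ι : Type*} (v : ι → Ω)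
    (hv : LinearIndependent ↥E₂ v) : LinearIndependent ↥E₁ v := by
  subst h
  exact hv

theorem tg_finite_and_finrank_of_eq {K F : Type*} [Field K] [Field F] [Algebra K F]
    (E₁ E₂ : IntermediateField K F) (h : E₁ = E₂) {n : ℕ} (hn : 0 < n)
    (h2 : Module.finrank ↥E₂ F = n) :
    FiniteDimensional ↥E₁ F ∧ Module.finrank ↥E₁ F = n := by
  subst h
  exact ⟨Module.finite_of_finrank_pos (by rw [h2]; exact hn), h2⟩

theorem tg_adjoin_simple_inv {K E : Type*} [Field K] [Field E] [Algebra K E] (y : E) :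
    K⟮y⁻¹⟯ = K⟮y⟯ := by
  apply le_antisymm
  · rw [adjoin_simple_le_iff]
    exact inv_mem (mem_adjoin_simple_self K y)
  · rw [adjoin_simple_le_iff]
    have := inv_mem (mem_adjoin_simple_self K y⁻¹)
    rwa [inv_inv] at this

theorem tg_isIntegral_adjoin_of_eq {K Ω : Type*} [Field K] [Field Ω] [Algebra K Ω] {y z : Ω}
    (h : y = z) {t : Ω} (ht : IsIntegral ↥(Algebra.adjoin K {y}) t) :
    IsIntegral ↥(Algebra.adjoin K {z}) t := by
  subst h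
  exact ht

instance tgPm_finiteIndex (M : ℕ) [NeZero M] : (tgPm (Gamma1 M)).FiniteIndex :=
  Subgroup.finiteIndex_of_le (le_tgPm (Gamma1 M))

/-- `n = [SL₂(ℤ) : ±Γ₁(M)]`, the degree of `X₁(M) → X(1)` -/
def tgoDeg (M : ℕ) : ℕ := (tgPm (Gamma1 M)).index

theorem tgoDeg_pos (M : ℕ) [NeZero M] : 0 < tgoDeg M :=
  Nat.pos_of_ne_zero Subgroup.FiniteIndex.index_ne_zero

section GenericDeg

variable {K : Type*} [Field K] {M : ℕ} [NeZero M] {ζ' : Kˣ} (G : TgGalois K M ζ')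

include G in
theorem tg_finrank_tgOne_eq (hζ' : IsPrimitiveRoot ζ' M) (h6 : 6 ≤ M) :
    Module.finrank ↥(K⟮tgOneJ K M ζ'⟯) ↥(TgOne K M ζ') = tgoDeg M :=
  G.finrank_tgOne hζ' h6

include G in
theorem tg_finite_tgOne (hζ' : IsPrimitiveRoot ζ' M) (h6 : 6 ≤ M) :
    FiniteDimensional ↥(K⟮tgOneJ K M ζ'⟯) ↥(TgOne K M ζ') :=
  Module.finite_of_finrank_pos (by rw [tg_finrank_tgOne_eq G hζ' h6]; exact tgoDeg_pos M)

include G in
/-- a basis of `TgOne` over `K(j)` indexed by `Fin n` -/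
theorem tg_exists_basis_tgOne (hζ' : IsPrimitiveRoot ζ' M) (h6 : 6 ≤ M) :
    ∃ B : Fin (tgoDeg M) → ↥(TgOne K M ζ'), LinearIndependent ↥(K⟮tgOneJ K M ζ'⟯) B := by
  haveI := tg_finite_tgOne G hζ' h6
  have e := tg_finrank_tgOne_eq G hζ' h6
  obtain ⟨B⟩ : Nonempty (Module.Basis (Fin (tgoDeg M)) ↥(K⟮tgOneJ K M ζ'⟯)
      ↥(TgOne K M ζ')) := by
    rw [← e]
    exact ⟨Module.finBasis _ _⟩
  exact ⟨fun i => B i, B.linearIndependent⟩

end GenericDeg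

variable {L : Type*} [Field L] [Algebra ℚ L] (O : ValuationSubring L)
  {k : Type*} [Field k] (π : ↥O →+* k)
  [IsDiscreteValuationRing ↥O] (hπ : Function.Surjective π)
  {M : ℕ} [NeZero M] {ζ : Lˣ} (hζ : IsPrimitiveRoot ζ M) (hM : (M : k) ≠ 0)
  (Gal : TgGalois L M ζ)

/-! ### The chart data -/

include Gal in
/-- **the data of a chart**: the degree and an independent family of that size whose residues lie
in `TgOne k M ζ̄` -/
theorem tgo_chart_data (h6 : 6 ≤ M) (Ch : TaChart (tgoAbs O π hπ hζ hM))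
    (hx : L⟮Ch.x⟯ = L⟮tgOneJ L M ζ⟯) (hxb : k⟮Ch.xb⟯ = k⟮jqModC k⟯) :
    FiniteDimensional ↥(L⟮Ch.x⟯) ↥(TgOne L M ζ) ∧
      Module.finrank ↥(L⟮Ch.x⟯) ↥(TgOne L M ζ) ≤ tgoDeg M ∧
      ∃ b : Fin (tgoDeg M) → ↥(tgoAbs O π hπ hζ hM).Ov,
        (∀ i, (tgoAbs O π hπ hζ hM).ρ (b i) ∈ TgOne k M (tgZetaBar O π hζ.pow_eq_one)) ∧
          Ch.core.Indep b := by
  have h3 : 3 ≤ M := by omega
  obtain ⟨hfd, hfr⟩ := tg_finite_and_finrank_of_eq _ _ hx (tgoDeg_pos M)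
    (Gal.finrank_tgOne hζ h6)
  refine ⟨hfd, hfr.le, ?_⟩
  -- the residue side
  have hζb := tgZetaBar_isPrimitiveRoot O π hζ hM
  obtain ⟨B, hB⟩ := tg_exists_basis_tgOne (tgGalBar O π hπ hζ hM Gal h3) hζb h6
  choose b hb using fun i => tgo_exists_res_eq O π hπ hζ hM (B i)
  refine ⟨b, fun i => ?_, ?_⟩
  · show tgoRes O π hπ hζ hM (b i) ∈ _
    rw [hb i]
    exact (B i).2
  · apply tg_indep_of_linearIndependent Ch b
    have h1 := tg_linearIndependent_coe (TgOne k M (tgZetaBar O π hζ.pow_eq_one))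
      (tgOneJ k M (tgZetaBar O π hζ.pow_eq_one)) B hB
    have hfun : (fun i => (tgoAbs O π hπ hζ hM).ρ (b i)) =
        fun i => ((B i : ↥(TgOne k M (tgZetaBar O π hζ.pow_eq_one))) : LaurentSeries k) :=
      funext fun i => hb i
    rw [hfun]
    exact tg_linearIndependent_of_eq _ _ hxb _ h1

variable {ϖ : ↥O} (hϖ : Irreducible ϖ)

include Gal in
theorem tgoChartFin_data (h6 : 6 ≤ M) :
    FiniteDimensional ↥(L⟮(tgoChartFin O π hπ hζ hM hϖ).x⟯) ↥(TgOne L M ζ) ∧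
      Module.finrank ↥(L⟮(tgoChartFin O π hπ hζ hM hϖ).x⟯) ↥(TgOne L M ζ) ≤ tgoDeg M ∧
      ∃ b : Fin (tgoDeg M) → ↥(tgoAbs O π hπ hζ hM).Ov,
        (∀ i, (tgoAbs O π hπ hζ hM).ρ (b i) ∈ TgOne k M (tgZetaBar O π hζ.pow_eq_one)) ∧
          (tgoChartFin O π hπ hζ hM hϖ).core.Indep b :=
  tgo_chart_data O π hπ hζ hM Gal h6 _ rfl (by rw [tgoChartFin_xb])

include Gal in
theorem tgoChartInf_data (h6 : 6 ≤ M) :
    FiniteDimensional ↥(L⟮(tgoChartInf O π hπ hζ hM hϖ).x⟯) ↥(TgOne L M ζ) ∧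
      Module.finrank ↥(L⟮(tgoChartInf O π hπ hζ hM hϖ).x⟯) ↥(TgOne L M ζ) ≤ tgoDeg M ∧
      ∃ b : Fin (tgoDeg M) → ↥(tgoAbs O π hπ hζ hM).Ov,
        (∀ i, (tgoAbs O π hπ hζ hM).ρ (b i) ∈ TgOne k M (tgZetaBar O π hζ.pow_eq_one)) ∧
          (tgoChartInf O π hπ hζ hM hϖ).core.Indep b :=
  tgo_chart_data O π hπ hζ hM Gal h6 _ (tg_adjoin_simple_inv _)
    (by rw [tgoChartInf_xb]; exact tg_adjoin_simple_inv _)

/-! ### (A2) the degree -/

include hζ Gal in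
/-- **(A2)** `[TgOne L M ζ : L(j)] = [SL₂(ℤ) : ±Γ₁(M)]` (helper5's `finrank_tgOne`) -/
theorem tgo_finrank (h6 : 6 ≤ M) :
    Module.finrank ↥(L⟮tgOneJ L M ζ⟯) ↥(TgOne L M ζ) = tgoDeg M :=
  Gal.finrank_tgOne hζ h6

include O π hπ hM Gal in
/-- the same degree over the residue field -/
theorem tgo_finrank_bar (h6 : 6 ≤ M) :
    Module.finrank ↥(k⟮tgOneJ k M (tgZetaBar O π hζ.pow_eq_one)⟯)
      ↥(TgOne k M (tgZetaBar O π hζ.pow_eq_one)) = tgoDeg M :=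
  (tgGalBar O π hπ hζ hM Gal (by omega)).finrank_tgOne (tgZetaBar_isPrimitiveRoot O π hζ hM) h6

/-! ### (A1) the residue field -/

include Gal in
/-- **(A1)** the residue of every element of the Gauss valuation ring of `TgOne L M ζ` lies in
`TgOne k M ζ̄` -/
theorem tgo_range (h6 : 6 ≤ M) (f : ↥(tgoV O π hπ hζ hM)) :
    tgoRes O π hπ hζ hM f ∈ TgOne k M (tgZetaBar O π hζ.pow_eq_one) := by
  obtain ⟨ϖ, hϖ⟩ := IsDiscreteValuationRing.exists_irreducible ↥O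
  obtain ⟨hfd, hn, b, hbE, hb⟩ := tgoChartFin_data O π hπ hζ hM Gal hϖ h6
  haveI := hfd
  refine (tgoChartFin O π hπ hζ hM hϖ).ρ_mem_of_forall_mem hb hn
    (TgOne k M (tgZetaBar O π hζ.pow_eq_one)) ?_ hbE f
  rw [tgoChartFin_xb]
  exact jqModC_mem_tgOne k M _

include Gal in
/-- **(A1)** the residue field of `TgOne L M ζ` is `TgOne k M ζ̄` -/
theorem tgoResField_eq (h6 : 6 ≤ M) :
    tgoResField O π hπ hζ hM = TgOne k M (tgZetaBar O π hζ.pow_eq_one) := by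
  apply le_antisymm
  · rintro _ ⟨f, rfl⟩
    exact tgo_range O π hπ hζ hM Gal h6 f
  · exact tgOne_bar_le O π hπ hζ hM

/-! ### (A3) integrality -/

include Gal in
/-- **(Int), chart `j`** -/
theorem tgo_int_fin (h6 : 6 ≤ M) {f : ↥(TgOne L M ζ)} (hf : f ∈ tgoV O π hπ hζ hM)
    (hint : IsIntegral ↥(Algebra.adjoin L {tgOneJ L M ζ}) f) :
    IsIntegral ↥(Algebra.adjoin ↥O {tgOneJ L M ζ}) f := by
  obtain ⟨ϖ, hϖ⟩ := IsDiscreteValuationRing.exists_irreducible ↥O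
  obtain ⟨hfd, hn, b, -, hb⟩ := tgoChartFin_data O π hπ hζ hM Gal hϖ h6
  haveI := hfd
  exact (tgoChartFin O π hπ hζ hM hϖ).isIntegral_of_isIntegral_field hb hn hf hint

include Gal in
/-- **(Int), chart `1/j`** -/
theorem tgo_int_inf (h6 : 6 ≤ M) {f : ↥(TgOne L M ζ)} (hf : f ∈ tgoV O π hπ hζ hM)
    (hint : IsIntegral ↥(Algebra.adjoin L {(tgOneJ L M ζ)⁻¹}) f) :
    IsIntegral ↥(Algebra.adjoin ↥O {(tgOneJ L M ζ)⁻¹}) f := by
  obtain ⟨ϖ, hϖ⟩ := IsDiscreteValuationRing.exists_irreducible ↥O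
  obtain ⟨hfd, hn, b, -, hb⟩ := tgoChartInf_data O π hπ hζ hM Gal hϖ h6
  haveI := hfd
  exact (tgoChartInf O π hπ hζ hM hϖ).isIntegral_of_isIntegral_field hb hn hf hint

include Gal in
/-- **(Int), residue form, chart `j`** -/
theorem tgo_res_int_fin (h6 : 6 ≤ M) (f : ↥(tgoV O π hπ hζ hM))
    (hint : IsIntegral ↥(Algebra.adjoin L {tgOneJ L M ζ}) (f : ↥(TgOne L M ζ))) :
    IsIntegral ↥(Algebra.adjoin k {jqModC k}) (tgoRes O π hπ hζ hM f) := by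
  obtain ⟨ϖ, hϖ⟩ := IsDiscreteValuationRing.exists_irreducible ↥O
  obtain ⟨hfd, hn, b, -, hb⟩ := tgoChartFin_data O π hπ hζ hM Gal hϖ h6
  haveI := hfd
  exact tg_isIntegral_adjoin_of_eq (tgoChartFin_xb O π hπ hζ hM hϖ)
    ((tgoChartFin O π hπ hζ hM hϖ).isIntegral_ρ_of_isIntegral_field hb hn f hint)

include Gal in
/-- **(Int), residue form, chart `1/j`** -/
theorem tgo_res_int_inf (h6 : 6 ≤ M) (f : ↥(tgoV O π hπ hζ hM))
    (hint : IsIntegral ↥(Algebra.adjoin L {(tgOneJ L M ζ)⁻¹}) (f : ↥(TgOne L M ζ))) :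
    IsIntegral ↥(Algebra.adjoin k {(jqModC k)⁻¹}) (tgoRes O π hπ hζ hM f) := by
  obtain ⟨ϖ, hϖ⟩ := IsDiscreteValuationRing.exists_irreducible ↥O
  obtain ⟨hfd, hn, b, -, hb⟩ := tgoChartInf_data O π hπ hζ hM Gal hϖ h6
  haveI := hfd
  exact tg_isIntegral_adjoin_of_eq (tgoChartInf_xb O π hπ hζ hM hϖ)
    ((tgoChartInf O π hπ hζ hM hϖ).isIntegral_ρ_of_isIntegral_field hb hn f hint)

/-- residues of elements integral over `O[j]` are integral over `k[j̄]` -/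
theorem tgo_res_int_fin_of_int (f : ↥(tgoV O π hπ hζ hM))
    (hint : IsIntegral ↥(Algebra.adjoin ↥O {tgOneJ L M ζ}) (f : ↥(TgOne L M ζ))) :
    IsIntegral ↥(Algebra.adjoin k {jqModC k}) (tgoRes O π hπ hζ hM f) := by
  obtain ⟨ϖ, hϖ⟩ := IsDiscreteValuationRing.exists_irreducible ↥O
  exact tg_isIntegral_adjoin_of_eq (tgoChartFin_xb O π hπ hζ hM hϖ)
    ((tgoChartFin O π hπ hζ hM hϖ).isIntegral_ρ f hint)

theorem tgo_res_int_inf_of_int (f : ↥(tgoV O π hπ hζ hM))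
    (hint : IsIntegral ↥(Algebra.adjoin ↥O {(tgOneJ L M ζ)⁻¹}) (f : ↥(TgOne L M ζ))) :
    IsIntegral ↥(Algebra.adjoin k {(jqModC k)⁻¹}) (tgoRes O π hπ hζ hM f) := by
  obtain ⟨ϖ, hϖ⟩ := IsDiscreteValuationRing.exists_irreducible ↥O
  exact tg_isIntegral_adjoin_of_eq (tgoChartInf_xb O π hπ hζ hM hϖ)
    ((tgoChartInf O π hπ hζ hM hϖ).isIntegral_ρ f hint)

/-! ### (A4) (Cart) -/

include Gal in
/-- **(Cart)**: every finite-dimensional `L`-subspace `W` of `TgOne L M ζ` has an orthonormal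
basis for the Gauss valuation -/
theorem tgo_cart (h6 : 6 ≤ M) (W : Submodule L ↥(TgOne L M ζ)) [FiniteDimensional L W] :
    ∃ (m : ℕ) (w : Fin m → ↥(TgOne L M ζ)) (hw : ∀ i, w i ∈ tgoV O π hπ hζ hM),
      (∀ i, w i ∈ W) ∧ LinearIndependent L w ∧ Submodule.span L (Set.range w) = W ∧
      (∀ c : Fin m → L, (∑ i, c i • w i ∈ tgoV O π hπ hζ hM ↔ ∀ i, c i ∈ O)) ∧
      (∀ γ : Fin m → k, ∑ i, HahnSeries.C (γ i) * tgoRes O π hπ hζ hM ⟨w i, hw i⟩ = 0 →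
        ∀ i, γ i = 0) := by
  obtain ⟨ϖ, hϖ⟩ := IsDiscreteValuationRing.exists_irreducible ↥O
  obtain ⟨hfd, hn, b, -, hb⟩ := tgoChartFin_data O π hπ hζ hM Gal hϖ h6
  haveI := hfd
  obtain ⟨m, w, hw, h1, h2, h3, h4, h5⟩ :=
    (tgoChartFin O π hπ hζ hM hϖ).exists_orthonormal_basis hb hn W
  refine ⟨m, w, hw, h1, h2, h3, h4, ?_⟩
  intro γ hγ
  refine h5 γ ?_
  rw [← hγ]
  refine Finset.sum_congr rfl fun i _ => ?_
  rw [tg_algebraMap_eq_C]
  rfl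

/-! ### Uniqueness of the extension of the Gauss valuation -/

include Gal in
/-- **the Gauss valuation ring of `TgOne L M ζ` is contained in every valuation ring above the
Gauss valuation ring of `L(j)`** -/
theorem tgoV_le_of_forall_inv_mem (h6 : 6 ≤ M) (V : ValuationSubring ↥(TgOne L M ζ))
    (hO : ∀ a : ↥O, algebraMap L ↥(TgOne L M ζ) (a : L) ∈ V) (hj : tgOneJ L M ζ ∈ V)
    (hu : ∀ P : (↥O)[X], P.map π ≠ 0 → (aeval (tgOneJ L M ζ) P)⁻¹ ∈ V) :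
    tgoV O π hπ hζ hM ≤ V := by
  obtain ⟨ϖ, hϖ⟩ := IsDiscreteValuationRing.exists_irreducible ↥O
  obtain ⟨hfd, hn, b, -, hb⟩ := tgoChartFin_data O π hπ hζ hM Gal hϖ h6
  haveI := hfd
  exact (tgoChartFin O π hπ hζ hM hϖ).Ov_le_of_forall_aeval_inv_mem hb hn V hO hj hu

end Fermat.Agent.T1G
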