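/-
T1G (helper6): the fundamental inequality `f ≤ n` for a chart of the abstract Gauss package, in
linear-independence form, and some transfer lemmas between an intermediate field `E ≤ Ω` and `Ω`.
-/
import Fermat.Agent.Lib.T1.GoodRed.AbsInt

set_option autoImplicit false
set_option linter.unusedSectionVars false
set_option linter.style.haveILetI false

open Polynomial IntermediateField Fermat.Agent.Igusa Fermat.Agent.T1

noncomputable section

namespace Fermat.Agent.T1G

section Chart

variable {L F k Ω : Type*} [Field L] [Field F] [Algebra L F] [Field k] [Field Ω] [Algebra k Ω]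
variable {D : TaAbs L F k Ω} (Ch : TaChart D)

/-- elements of the valuation ring whose residues are linearly independent over `k(ρ x)` form an
independent family -/
theorem tg_indep_of_linearIndependent {n : ℕ} (b : Fin n → ↥D.Ov)
    (hli : LinearIndependent ↥(k⟮Ch.xb⟯) (fun i => D.ρ (b i))) : Ch.core.Indep b := by
  intro a ha i
  choose c hc using fun i => Ch.ρ_incl_mem_range (a i)
  rw [Fintype.linearIndependent_iff] at hli
  have h := hli c (by
    rw [← ha]
    refine Finset.sum_congr rfl fun i _ => ?_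
    rw [Algebra.smul_def, hc]
    rfl) i
  rw [← hc, h, map_zero]

/-- **the fundamental inequality** -/
theorem tg_le_finrank_of_linearIndependent [FiniteDimensional ↥(L⟮Ch.x⟯) F] {n : ℕ}
    (b : Fin n → ↥D.Ov) (hli : LinearIndependent ↥(k⟮Ch.xb⟯) (fun i => D.ρ (b i))) :
    n ≤ Module.finrank ↥(L⟮Ch.x⟯) F :=
  Ch.le_finrank (tg_indep_of_linearIndependent Ch b hli)

end Chart

section Transfer

variable {K Ω : Type*} [Field K] [Field Ω] [Algebra K Ω] (E : IntermediateField K Ω)

/-- `K(x) ⊆ Ω` is the image of `K(x) ⊆ E` -/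
theorem tg_exists_coe_eq_of_mem_adjoin (x : ↥E) {c : Ω} (hc : c ∈ K⟮(x : Ω)⟯) :
    ∃ c' : ↥E, c' ∈ K⟮x⟯ ∧ (c' : Ω) = c := by
  have h : K⟮(x : Ω)⟯ = (K⟮x⟯ : IntermediateField K ↥E).map E.val := by
    rw [IntermediateField.adjoin_map, Set.image_singleton]
    rfl
  rw [h] at hc
  obtain ⟨c', hc', e⟩ := hc
  exact ⟨c', hc', e⟩

/-- linear independence over `K(x)` inside `E` implies linear independence over `K(x)` in `Ω` -/
theorem tg_linearIndependent_coe (x : ↥E) {n : ℕ} (z : Fin n → ↥E)
    (hz : LinearIndependent ↥(K⟮x⟯ : IntermediateField K ↥E) z) :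
    LinearIndependent ↥(K⟮(x : Ω)⟯) (fun i => (z i : Ω)) := by
  rw [Fintype.linearIndependent_iff] at hz ⊢
  intro g hg i
  choose g' hg' hgg' using fun i => tg_exists_coe_eq_of_mem_adjoin E x (g i).2
  have h1 : ∑ i, (⟨g' i, hg' i⟩ : ↥(K⟮x⟯ : IntermediateField K ↥E)) • z i = 0 := by
    apply Subtype.ext
    rw [ZeroMemClass.coe_zero, ← hg, AddSubmonoidClass.coe_finsetSum]
    refine Finset.sum_congr rfl fun i _ => ?_
    show ((g' i * z i : ↥E) : Ω) = (g i : Ω) * (z i : Ω)
    rw [MulMemClass.coe_mul, hgg']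
  have h2 := hz _ h1 i
  have h3 : g' i = 0 := congrArg Subtype.val h2
  apply Subtype.ext
  rw [← hgg' i, h3]
  rfl

end Transfer

end Fermat.Agent.T1G
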